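import Mathlib

/-! # S27 / C1 (CE): the holomorphic implicit function lemma for `P : ℂ[X][Y]`  (pure analysis)

* `analyticAt_evalEval`: induction on `A` (`Polynomial.induction_on'`), or write
  `evalEval σ (φ σ) A = ∑ j, (A.coeff j).eval σ * φ σ ^ j` (`Polynomial.eval_eq_sum_range`,
  `eval_finset_sum`); polynomials are analytic (`AnalyticAt.aeval_polynomial`/`fun_prop`).
* `exists_implicit`: `f : ℂ × ℂ → ℂ := fun u => evalEval u.1 u.2 P` is analytic, so
  `ContDiffAt ℂ ω f (a,b)`; `fderiv f (a,b) ∘ inr` is multiplication by `P_Y(a,b) ≠ 0`, hence invertible.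
  Use `ContDiffAt.implicitFunction`, `implicitFunction_apply_self`, `eventually_apply_implicitFunction`,
  `contDiffAt_implicitFunction` (Mathlib/Analysis/Calculus/ImplicitContDiff.lean) with `n = ω`,
  `contDiffAt_omega_iff_analyticAt`, `AnalyticAt.eventually_analyticAt`, `Metric.eventually_nhds_iff_ball`.
-/

set_option autoImplicit false

namespace Fermat.Agent.S27

open Polynomial
open scoped Polynomial.Bivariate ContDiff

/-- a polynomial expression in two analytic functions is analytic -/
theorem analyticAt_evalEval_two {E : Type*} [NormedAddCommGroup E] [NormedSpace ℂ E]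
    (A : ℂ[X][Y]) {g h : E → ℂ} {x₀ : E} (hg : AnalyticAt ℂ g x₀) (hh : AnalyticAt ℂ h x₀) :
    AnalyticAt ℂ (fun x => evalEval (g x) (h x) A) x₀ := by
  induction A using Polynomial.induction_on' with
  | add p q hp hq =>
    simp only [evalEval_add]
    exact hp.add hq
  | monomial n c =>
    have : (fun x => evalEval (g x) (h x) (monomial n c)) =
        fun x => (aeval (g x) c) * h x ^ n := by
      funext x
      simp [evalEval, eval_monomial, coe_aeval_eq_eval]
    rw [this]
    exact (hg.aeval_polynomial c).mul (hh.pow n)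

/-- a polynomial expression in `σ` and an analytic function of `σ` is analytic -/
theorem analyticAt_evalEval (A : ℂ[X][Y]) {φ : ℂ → ℂ} {τ₀ : ℂ} (hφ : AnalyticAt ℂ φ τ₀) :
    AnalyticAt ℂ (fun σ => evalEval σ (φ σ) A) τ₀ :=
  analyticAt_evalEval_two A analyticAt_id hφ

theorem hasDerivAt_evalEval_snd (P : ℂ[X][Y]) (a b : ℂ) :
    HasDerivAt (fun y => evalEval a y P) (evalEval a b (derivative P)) b := by
  induction P using Polynomial.induction_on' with
  | add p q hp hq =>
    simp only [evalEval_add, derivative_add]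
    exact hp.add hq
  | monomial n c =>
    have h1 : (fun y => evalEval a y (monomial n c)) = fun y => c.eval a * y ^ n := by
      funext y
      simp [evalEval, eval_monomial]
    have h2 : evalEval a b (derivative (monomial n c)) = c.eval a * ((n : ℂ) * b ^ (n - 1)) := by
      simp [evalEval, derivative_monomial, eval_monomial]
      ring
    rw [h1, h2]
    exact (hasDerivAt_pow n b).const_mul _

/-- **Implicit function lemma.** -/
theorem exists_implicit (P : ℂ[X][Y]) (a b : ℂ) (h0 : evalEval a b P = 0)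
    (h1 : evalEval a b (derivative P) ≠ 0) :
    ∃ r > 0, ∃ φ : ℂ → ℂ, φ a = b ∧ (∀ τ ∈ Metric.ball a r, AnalyticAt ℂ φ τ) ∧
      ∀ τ ∈ Metric.ball a r, evalEval τ (φ τ) P = 0 := by
  set f : ℂ × ℂ → ℂ := fun u => evalEval u.1 u.2 P with hf
  have hfan : AnalyticAt ℂ f (a, b) := analyticAt_evalEval_two P analyticAt_fst analyticAt_snd
  have cdf : ContDiffAt ℂ ω f (a, b) := hfan.contDiffAt
  have pn : (ω : ℕ∞ω) ≠ 0 := by simp
  set c : ℂ := evalEval a b (derivative P) with hc
  have hpart : (fderiv ℂ f (a, b) ∘L ContinuousLinearMap.inr ℂ ℂ ℂ) 1 = c := by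
    have hfd : HasFDerivAt f (fderiv ℂ f (a, b)) (a, b) := hfan.differentiableAt.hasFDerivAt
    have hin : HasFDerivAt (fun y : ℂ => ((a, y) : ℂ × ℂ)) (ContinuousLinearMap.inr ℂ ℂ ℂ) b :=
      hasFDerivAt_prodMk_right a b
    have hcomp : HasFDerivAt (fun y : ℂ => f (a, y))
        (fderiv ℂ f (a, b) ∘L ContinuousLinearMap.inr ℂ ℂ ℂ) b := hfd.comp b hin
    have hd := hcomp.hasDerivAt
    exact hd.unique (hasDerivAt_evalEval_snd P a b)
  have if₂ : (fderiv ℂ f (a, b) ∘L ContinuousLinearMap.inr ℂ ℂ ℂ).IsInvertible := by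
    refine ⟨ContinuousLinearEquiv.unitsEquivAut ℂ (Units.mk0 c h1), ?_⟩
    ext
    simp [hpart]
  set φ := cdf.implicitFunction pn if₂ with hφ
  have hφa : φ a = b := cdf.implicitFunction_apply_self pn if₂
  have hφan : AnalyticAt ℂ φ a :=
    (cdf.contDiffAt_implicitFunction pn if₂).analyticAt
  have hev : ∀ᶠ x in nhds a, AnalyticAt ℂ φ x ∧ f (x, φ x) = f (a, b) :=
    hφan.eventually_analyticAt.and (cdf.eventually_apply_implicitFunction pn if₂)
  obtain ⟨r, hr, hball⟩ := Metric.eventually_nhds_iff_ball.mp hev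
  refine ⟨r, hr, φ, hφa, fun τ hτ => (hball τ hτ).1, fun τ hτ => ?_⟩
  have := (hball τ hτ).2
  simpa [hf, h0] using this

end Fermat.Agent.S27
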