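import Fermat.Agent.S27.CE.PlacesOver
import Fermat.Agent.S27.CE.Implicit

/-! # S27 / C1 (CE): Step 5 of BLUEPRINT_C: regular functions are analytic along `pl k`

`smoothPoint_local_ring` at `pl k τ` gives `A B` with `f * B(t,y) = A(t,y)`, `B(τ, φ k τ) ≠ 0`.
`σ ↦ B(σ, φ k σ)` is analytic at `τ` (`analyticAt_evalEval`, `D.analytic_φ`), so `≠ 0` near `τ`
(`ContinuousAt.eventually_ne`).  For such `σ ∈ D.dom`: `IsVal (pl k σ) (B(t,y)) (B(σ, φ k σ))`
(`IsVal.aevalAeval`, `isVal_t`, `isVal_y`), same for `A`, so `IsVal (pl k σ) f (A/B)`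
(`IsVal.inv`, `IsVal.mul`; `f = A(t,y) * (B(t,y))⁻¹`) and `ev_eq_of_isVal`.  Conclude by
`AnalyticAt.congr` from `AnalyticAt.div`.
-/

set_option autoImplicit false

noncomputable section

namespace Fermat.Agent.S27

open AlgebraicCurve Fermat.Agent.S24.FF Polynomial IntermediateField Topology
open scoped Polynomial.Bivariate

namespace FibreData

variable {F : Type*} [Field F] [Algebra ℂ F] [IsFF1 ℂ F] (D : FibreData F)

theorem analyticAt_ev (k : Fin D.d) (f : F) {τ : ℂ} (hτ : τ ∈ D.dom)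
    (hf : 0 ≤ (D.pl k τ).ord f) : AnalyticAt ℂ (fun σ => ev (D.pl k σ) f) τ := by
  obtain ⟨A, B, hB, hfB⟩ := smoothPoint_local_ring D.gen D.hP (D.isVal_t k hτ) (D.isVal_y k hτ)
    (D.deriv_ne k hτ) f hf
  have hφ : AnalyticAt ℂ (D.φ k) τ := D.analytic_φ k τ hτ
  have hAan : AnalyticAt ℂ (fun σ => evalEval σ (D.φ k σ) A) τ := analyticAt_evalEval A hφ
  have hBan : AnalyticAt ℂ (fun σ => evalEval σ (D.φ k σ) B) τ := analyticAt_evalEval B hφ
  have hne : ∀ᶠ σ in 𝓝 τ, evalEval σ (D.φ k σ) B ≠ 0 := hBan.continuousAt.eventually_ne hB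
  have hdom : ∀ᶠ σ in 𝓝 τ, σ ∈ D.dom := D.isOpen_dom.mem_nhds hτ
  refine (hAan.div hBan hB).congr ?_
  filter_upwards [hne, hdom] with σ hσ hσd
  have hBv : IsVal (D.pl k σ) (aevalAeval D.t D.y B) (evalEval σ (D.φ k σ) B) :=
    IsVal.aevalAeval (D.isVal_t k hσd) (D.isVal_y k hσd) B
  have hAv : IsVal (D.pl k σ) (aevalAeval D.t D.y A) (evalEval σ (D.φ k σ) A) :=
    IsVal.aevalAeval (D.isVal_t k hσd) (D.isVal_y k hσd) A
  have hB0 : aevalAeval D.t D.y B ≠ 0 := (hBv.ord_eq_zero hσ).1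
  have hfeq : f = aevalAeval D.t D.y A * (aevalAeval D.t D.y B)⁻¹ := by
    rw [← hfB, mul_assoc, mul_inv_cancel₀ hB0, mul_one]
  have hval : IsVal (D.pl k σ) f
      (evalEval σ (D.φ k σ) A * (evalEval σ (D.φ k σ) B)⁻¹) := by
    rw [hfeq]
    exact hAv.mul (hBv.inv hσ)
  rw [ev_eq_of_isVal hval]
  simp [div_eq_mul_inv]

end FibreData

end Fermat.Agent.S27
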