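import Fermat.Agent.S27.WLoc

/-! # S27 / C1 (CE): Lemma 6a of BLUEPRINT_C, case where `t` is regular at `w`

`0 ≤ ord_w t`, `a = ev w t` (`isVal_ev`), `a ≠ τ₀` by `hτ₀`, `s = t - a` (`0 < ord_w s`; `s ≠ 0` as `t` is
 transcendental).  Induction on a bound `N ≥ - ord_w h`: for `τ ≠ a`
 `h (t-τ)⁻¹ = (a-τ)⁻¹ h - (a-τ)⁻¹ (h s) (t-τ)⁻¹`  (field identity, `t - τ = s + (a-τ)`),
 and `ord_w (t-τ) = 0`, so for `N = 0` the local component vanishes for all `τ ≠ a`.
-/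

set_option autoImplicit false

noncomputable section

namespace Fermat.Agent.S27

open AlgebraicCurve Fermat.Agent.S24.FF Topology

variable {F : Type*} [Field F] [Algebra ℂ F] [IsFF1 ℂ F]

omit [IsFF1 ℂ F] in
theorem analyticAt_loc_of_reg_aux (lam : WDiff ℂ F) (w : Place ℂ F) (t : F) (a τ₀ : ℂ)
    (hs : 0 < w.ord (t - algebraMap ℂ F a)) (ha : τ₀ ≠ a) (N : ℕ) :
    ∀ h : F, -(N : ℤ) ≤ w.ord h →
      AnalyticAt ℂ (fun τ => lam.loc w (h * (t - algebraMap ℂ F τ)⁻¹)) τ₀ := by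
  have hs0 : t - algebraMap ℂ F a ≠ 0 := ne_zero_of_ord_ne_zero w hs.ne'
  have hval : IsVal w t a := Or.inr hs
  have hunit : ∀ τ : ℂ, τ ≠ a →
      t - algebraMap ℂ F τ ≠ 0 ∧ w.ord (t - algebraMap ℂ F τ) = 0 := by
    intro τ hτ
    exact (hval.sub (isVal_algebraMap w τ)).ord_eq_zero (sub_ne_zero.2 hτ.symm)
  have hev : ∀ᶠ τ in 𝓝 τ₀, τ ≠ a := eventually_ne_nhds ha
  induction N with
  | zero =>
    intro h hh
    have hh' : 0 ≤ w.ord h := by simpa using hh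
    refine (analyticAt_const (v := (0 : ℂ))).congr ?_
    filter_upwards [hev] with τ hτ
    obtain ⟨h0, h1⟩ := hunit τ hτ
    symm
    apply lam.loc_eq_zero_of_ord_nonneg
    rcases eq_or_ne h 0 with rfl | hne
    · rw [zero_mul, w.ord_zero]
    · rw [w.ord_mul hne (inv_ne_zero h0), w.ord_inv, h1]
      omega
  | succ N ih =>
    intro h hh
    have hhs : -(N : ℤ) ≤ w.ord (h * (t - algebraMap ℂ F a)) := by
      rcases eq_or_ne h 0 with rfl | hne
      · rw [zero_mul, w.ord_zero]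
        omega
      · rw [w.ord_mul hne hs0]
        push_cast at hh
        omega
    have h1 := ih _ hhs
    have hinv : AnalyticAt ℂ (fun τ : ℂ => (a - τ)⁻¹) τ₀ :=
      (analyticAt_const.sub analyticAt_id).inv (sub_ne_zero.2 ha.symm)
    have h2 : AnalyticAt ℂ (fun τ : ℂ => (a - τ)⁻¹ * lam.loc w h
        - (a - τ)⁻¹ * lam.loc w (h * (t - algebraMap ℂ F a) * (t - algebraMap ℂ F τ)⁻¹)) τ₀ :=
      (hinv.mul analyticAt_const).sub (hinv.mul h1)
    refine h2.congr ?_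
    filter_upwards [hev] with τ hτ
    obtain ⟨h0, _⟩ := hunit τ hτ
    rw [← lam.loc_const_mul, ← lam.loc_const_mul, ← lam.loc_sub]
    congr 1
    have hc : algebraMap ℂ F (a - τ) ≠ 0 :=
      (map_ne_zero (algebraMap ℂ F)).2 (sub_ne_zero.2 hτ.symm)
    rw [map_inv₀]
    have hc' : algebraMap ℂ F a - algebraMap ℂ F τ ≠ 0 := by rwa [map_sub] at hc
    rw [map_sub]
    field_simp
    ring

theorem analyticAt_loc_of_reg (lam : WDiff ℂ F) (w : Place ℂ F) (t h : F)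
    (htr : Transcendental ℂ t) (ht : 0 ≤ w.ord t) (τ₀ : ℂ)
    (hτ₀ : ¬ 0 < w.ord (t - algebraMap ℂ F τ₀)) :
    AnalyticAt ℂ (fun τ => lam.loc w (h * (t - algebraMap ℂ F τ)⁻¹)) τ₀ := by
  have hval := isVal_ev (v := w) (f := t) ht
  have hs : 0 < w.ord (t - algebraMap ℂ F (ev w t)) := by
    rcases hval with h1 | h1
    · exact absurd (h1 ▸ isAlgebraic_algebraMap (ev w t)) htr
    · exact h1
  have ha : τ₀ ≠ ev w t := by
    rintro rfl
    exact hτ₀ hs
  refine analyticAt_loc_of_reg_aux lam w t (ev w t) τ₀ hs ha (-(w.ord h)).toNat h ?_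
  have := Int.self_le_toNat (-(w.ord h))
  omega

end Fermat.Agent.S27
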