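import Fermat.Agent.S27.CE.LocPole
import Fermat.Agent.S27.CE.LocReg

/-! # S27 / C1 (CE): Lemma 6a of BLUEPRINT_C

For a place `w`, `h ∈ F` and `τ₀` such that `w` does not lie over `τ₀`, the function
`τ ↦ lam.loc w (h (t-τ)⁻¹)` is analytic at `τ₀`.  The two cases are in `LocPole.lean`, `LocReg.lean`.
-/

set_option autoImplicit false

noncomputable section

namespace Fermat.Agent.S27

open AlgebraicCurve Fermat.Agent.S24.FF Topology

variable {F : Type*} [Field F] [Algebra ℂ F] [IsFF1 ℂ F]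

/-- **Lemma 6a.** -/
theorem analyticAt_loc_mul_inv (lam : WDiff ℂ F) (w : Place ℂ F) (t h : F)
    (htr : Transcendental ℂ t) (τ₀ : ℂ) (hτ₀ : ¬ 0 < w.ord (t - algebraMap ℂ F τ₀)) :
    AnalyticAt ℂ (fun τ => lam.loc w (h * (t - algebraMap ℂ F τ)⁻¹)) τ₀ := by
  rcases lt_or_ge (w.ord t) 0 with ht | ht
  · exact analyticAt_loc_of_pole lam w t h ht τ₀
  · exact analyticAt_loc_of_reg lam w t h htr ht τ₀ hτ₀

end Fermat.Agent.S27
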