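import Fermat.Agent.S27.CE.KernelOrd
import Fermat.Agent.S27.CE.LocAnalytic

/-! # S27 / C1 (CE): Step 6 of BLUEPRINT_C, assembly: Weil differentials are analytic along `pl k`

`S` := the finite set of poles of `y` (`finite_ord_ne_zero`).  No `w ∈ S` lies over `τ ∈ D.dom` (`D.reg_y`).
* `loc_eq`: reciprocity `WDiff.sum_loc_eq_zero lam (ker k τ) (S ∪ image (pl · τ) univ)`; the hypothesis holds by
  `ord_ker_nonneg_of_reg` and `exists_eq_pl`.  `S` and the fibre are disjoint; on the fibre the terms `l ≠ k` vanish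
  (`ord_ker_nonneg_of_ne`, `loc_eq_zero_of_ord_nonneg`; the `pl l τ` are distinct: `pl_ne_of_ne`), the term `k` is
  `lam.loc (pl k τ) (t-τ)⁻¹` (`ord_ker_sub_nonneg`, `loc_congr`).  On `S` expand by `ker_eq_sum`, `loc_sum`,
  `loc_const_mul`.
* `analyticAt_loc`: finite sums of products of analytic functions (`analyticAt_lag_coeff`,
  `analyticAt_loc_mul_inv`), `AnalyticAt.congr` on the open set `D.dom`.
-/

set_option autoImplicit false

noncomputable section

namespace Fermat.Agent.S27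

open AlgebraicCurve Fermat.Agent.S24.FF Polynomial IntermediateField Topology
open scoped Polynomial.Bivariate

namespace FibreData

variable {F : Type*} [Field F] [Algebra ℂ F] [IsFF1 ℂ F] (D : FibreData F)

theorem loc_eq (k : Fin D.d) (lam : WDiff ℂ F) {τ : ℂ} (hτ : τ ∈ D.dom)
    (S : Finset (Place ℂ F)) (hS : ∀ w, w ∈ S ↔ w.ord D.y < 0) :
    lam.loc (D.pl k τ) (D.t - algebraMap ℂ F τ)⁻¹
      = - ∑ w ∈ S, ∑ j ∈ Finset.range D.d,
          (D.lag k τ).coeff j * lam.loc w (D.y ^ j * (D.t - algebraMap ℂ F τ)⁻¹) := by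
  classical
  set fib : Finset (Place ℂ F) := Finset.univ.image (fun l : Fin D.d => D.pl l τ) with hfib
  -- the two index sets are disjoint
  have hdisj : Disjoint S fib := by
    rw [Finset.disjoint_left]
    intro w hwS hwf
    rw [hfib, Finset.mem_image] at hwf
    obtain ⟨l, -, rfl⟩ := hwf
    exact absurd ((hS _).1 hwS) (not_lt.2 (D.isVal_y l hτ).ord_nonneg)
  -- the kernel is regular outside `S ∪ fib`
  have hreg : ∀ v, v ∉ S ∪ fib → 0 ≤ v.ord (D.ker k τ) := by
    intro v hv
    rw [Finset.mem_union, not_or] at hv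
    refine D.ord_ker_nonneg_of_reg k τ v ?_ (not_lt.1 fun h => hv.1 ((hS v).2 h))
    intro hpos
    obtain ⟨l, rfl⟩ := D.exists_eq_pl hτ v hpos
    exact hv.2 (Finset.mem_image_of_mem _ (Finset.mem_univ l))
  have hsum := lam.sum_loc_eq_zero (D.ker k τ) (S ∪ fib) hreg
  rw [Finset.sum_union hdisj] at hsum
  -- the sum over the fibre
  have hinj : Function.Injective (fun l : Fin D.d => D.pl l τ) := by
    intro a b hab
    by_contra hne
    exact D.pl_ne_of_ne hne hτ hab
  have hfibsum : ∑ w ∈ fib, lam.loc w (D.ker k τ)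
      = lam.loc (D.pl k τ) (D.t - algebraMap ℂ F τ)⁻¹ := by
    rw [hfib, Finset.sum_image (fun a _ b _ hab => hinj hab),
      Finset.sum_eq_single k]
    · exact lam.loc_congr (D.ord_ker_sub_nonneg k hτ)
    · intro l _ hl
      exact lam.loc_eq_zero_of_ord_nonneg (D.ord_ker_nonneg_of_ne hl hτ)
    · intro h
      exact absurd (Finset.mem_univ k) h
  -- the sum over the poles of `y`
  have hSsum : ∑ w ∈ S, lam.loc w (D.ker k τ)
      = ∑ w ∈ S, ∑ j ∈ Finset.range D.d,
          (D.lag k τ).coeff j * lam.loc w (D.y ^ j * (D.t - algebraMap ℂ F τ)⁻¹) := by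
    refine Finset.sum_congr rfl fun w _ => ?_
    rw [D.ker_eq_sum k τ, lam.loc_sum]
    exact Finset.sum_congr rfl fun j _ => lam.loc_const_mul w _ _
  rw [hfibsum, hSsum] at hsum
  exact eq_neg_of_add_eq_zero_right hsum

theorem analyticAt_loc (k : Fin D.d) (lam : WDiff ℂ F) {τ : ℂ} (hτ : τ ∈ D.dom) :
    AnalyticAt ℂ (fun σ => lam.loc (D.pl k σ) (D.t - algebraMap ℂ F σ)⁻¹) τ := by
  classical
  -- the finite set of poles of `y`
  have hfin : {w : Place ℂ F | w.ord D.y < 0}.Finite :=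
    (finite_ord_ne_zero (K := ℂ) D.y).subset fun w hw => ne_of_lt hw
  set S : Finset (Place ℂ F) := hfin.toFinset with hSdef
  have hS : ∀ w, w ∈ S ↔ w.ord D.y < 0 := fun w => by
    rw [hSdef, Set.Finite.mem_toFinset]; rfl
  have hmain : AnalyticAt ℂ (fun σ => - ∑ w ∈ S, ∑ j ∈ Finset.range D.d,
      (D.lag k σ).coeff j * lam.loc w (D.y ^ j * (D.t - algebraMap ℂ F σ)⁻¹)) τ := by
    refine AnalyticAt.neg ?_
    refine Finset.analyticAt_fun_sum _ fun w hw => ?_
    refine Finset.analyticAt_fun_sum _ fun j _ => ?_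
    refine (D.analyticAt_lag_coeff k j hτ).mul ?_
    refine analyticAt_loc_mul_inv lam w D.t (D.y ^ j) D.htr τ ?_
    intro hpos
    exact absurd ((hS w).1 hw) (not_lt.2 (D.reg_y τ hτ w hpos))
  refine hmain.congr ?_
  filter_upwards [D.isOpen_dom.mem_nhds hτ] with σ hσ
  exact (D.loc_eq k lam hσ S hS).symm

end FibreData

end Fermat.Agent.S27
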