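import Mathlib

/-! # S27 / C1 (CE): elementary facts on polynomials with prescribed simple roots

Pure algebra over a field `K`; no function fields.
* `eq_C_mul_prod_of_roots`: the difference has degree `< d` and `d` distinct roots
  (`Polynomial.eq_zero_of_natDegree_lt_card_of_eval_eq_zero`).
* `eval_derivative_C_mul_prod`: `Polynomial.derivative_prod` / `eval_prod`; all summands but one vanish.
-/

set_option autoImplicit false

namespace Fermat.Agent.S27

open Polynomial
open scoped Polynomial.Bivariate

variable {K : Type*} [Field K]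

theorem monic_prod_X_sub_C_aux {d : ℕ} (z : Fin d → K) :
    (∏ k, (X - C (z k))).Monic := monic_prod_of_monic _ _ fun k _ => monic_X_sub_C (z k)

theorem natDegree_prod_X_sub_C_aux {d : ℕ} (z : Fin d → K) :
    (∏ k, (X - C (z k))).natDegree = d := by
  rw [natDegree_prod_of_monic _ _ fun k _ => monic_X_sub_C (z k)]
  simp

/-- a polynomial of degree `≤ d` with `d` distinct roots -/
theorem eq_C_mul_prod_of_roots {d : ℕ} (p : K[X]) (hdeg : p.natDegree ≤ d) (z : Fin d → K)
    (hz : Function.Injective z) (h : ∀ k, p.eval (z k) = 0) :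
    p = C (p.coeff d) * ∏ k, (X - C (z k)) := by
  set q : K[X] := C (p.coeff d) * ∏ k, (X - C (z k)) with hq
  have hqdeg : q.natDegree ≤ d := by
    refine (natDegree_C_mul_le _ _).trans ?_
    rw [natDegree_prod_X_sub_C_aux]
  have hqcoeff : q.coeff d = p.coeff d := by
    rw [hq, coeff_C_mul]
    have h1 := (monic_prod_X_sub_C_aux z).coeff_natDegree
    rw [natDegree_prod_X_sub_C_aux] at h1
    rw [h1, mul_one]
  rcases Nat.eq_zero_or_pos d with rfl | hd
  · -- both are constants
    rw [hq]
    simp only [Finset.univ_eq_empty, Finset.prod_empty, mul_one]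
    exact eq_C_of_natDegree_le_zero hdeg
  have hsub : p - q = 0 := by
    have hlt : (p - q).natDegree < d := by
      have hle : (p - q).natDegree ≤ d := (natDegree_sub_le _ _).trans (max_le hdeg hqdeg)
      rcases lt_or_eq_of_le hle with h1 | h1
      · exact h1
      · exfalso
        have h2 : (p - q).coeff d = 0 := by rw [coeff_sub, hqcoeff, sub_self]
        have h3 : (p - q).leadingCoeff = 0 := by rw [leadingCoeff, h1, h2]
        rw [leadingCoeff_eq_zero] at h3
        rw [h3, natDegree_zero] at h1
        omega
    refine eq_zero_of_natDegree_lt_card_of_eval_eq_zero (p - q) hz (fun k => ?_) (by simpa using hlt)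
    rw [eval_sub, h k, hq, eval_mul, eval_prod, Finset.prod_eq_zero (Finset.mem_univ k) (by simp)]
    simp
  exact sub_eq_zero.mp hsub

/-- roots of a split polynomial -/
theorem exists_eq_of_eval_C_mul_prod {d : ℕ} {c : K} (hc : c ≠ 0) (z : Fin d → K) {b : K}
    (h : (C c * ∏ k, (X - C (z k))).eval b = 0) : ∃ k, b = z k := by
  rw [eval_mul, eval_C, eval_prod] at h
  have h1 := (mul_eq_zero.mp h).resolve_left hc
  obtain ⟨k, _, hk⟩ := Finset.prod_eq_zero_iff.mp h1
  refine ⟨k, ?_⟩
  simpa [sub_eq_zero] using hk

theorem eval_C_mul_prod_self {d : ℕ} (c : K) (z : Fin d → K) (k : Fin d) :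
    (C c * ∏ l, (X - C (z l))).eval (z k) = 0 := by
  rw [eval_mul, eval_prod, Finset.prod_eq_zero (Finset.mem_univ k) (by simp), mul_zero]

/-- the derivative at a root -/
theorem eval_derivative_C_mul_prod {d : ℕ} (c : K) (z : Fin d → K) (k : Fin d) :
    (derivative (C c * ∏ l, (X - C (z l)))).eval (z k)
      = c * ∏ l ∈ Finset.univ.erase k, (z k - z l) := by
  classical
  rw [derivative_C_mul, eval_mul, eval_C, derivative_prod_finset, eval_finsetSum]
  congr 1
  rw [Finset.sum_eq_single k]
  · simp [eval_prod]
  · intro b _ hb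
    rw [eval_mul, eval_prod,
      Finset.prod_eq_zero (Finset.mem_erase.mpr ⟨hb.symm, Finset.mem_univ k⟩) (by simp), zero_mul]
  · intro h; exact absurd (Finset.mem_univ k) h

/-- specialising the first variable commutes with `∂/∂Y` -/
theorem evalEval_derivative_eq (a b : K) (P : K[X][Y]) :
    evalEval a b (derivative P) = (derivative (P.map (evalRingHom a))).eval b := by
  rw [derivative_map]
  exact (map_evalRingHom_eval a b (derivative P)).symm

theorem evalEval_eq_eval_map (a b : K) (P : K[X][Y]) :
    evalEval a b P = (P.map (evalRingHom a)).eval b :=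
  (map_evalRingHom_eval a b P).symm

end Fermat.Agent.S27
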