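import Fermat.Agent.S27.FibUnif
import Fermat.Agent.S27.LocalBasis
import Fermat.Agent.S27.CE.PolyRoots

/-! # S27 / C1 (CE): Steps 1-2 of BLUEPRINT_C (algebra over any alg. closed `K` of char. 0)

* `polyOf q p = C q * Y^d - ∑_j C (p j) * Y^j`.
* `ord_nonneg_of_rel`: if `ord_w y < 0` then `ord_w (q(t) y^d) = d ord_w y` is strictly smaller than the
  order of every term `p_j(t) y^j` (`j < d`, `ord_w p_j(t) ≥ 0` since `t` is regular at `w`;
  `q(t)` is a unit at `w` since `q(τ) ≠ 0`: `IsVal.aeval`, `SmoothPoint.ne_zero_and_ord_eq_zero`).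
  Alternatively: `y` is integral over the valuation ring of `w`.
* `exists_setup`: `FibUnif.exists_uniformizer_simple_zeros` gives `t`; `t` is transcendental
  (`exists_const_or_transcendental`, `ord_algebraMap`); `exists_fibre t _ 0` + `card_fibre_of_unramified`
  give the fibre `s` with `d` elements, enumerate it (`Finset.equivFinOfCardEq`/`s.equivFin`);
  `exists_isVal s c` with `c` injective on `s` gives `y`; `localBasis_repr` with `f = y^d`
  gives `q, p`; `localBasis_gen` gives `Gen2` (`A = ∑ C (p j) Y^j`, `B = C q`).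
-/

set_option autoImplicit false

noncomputable section

namespace Fermat.Agent.S27

open AlgebraicCurve Fermat.Agent.S24.FF Polynomial IntermediateField
open scoped Polynomial.Bivariate

section Poly

variable {K : Type*} [Field K]

/-- `q(X) Y^d - ∑_j p_j(X) Y^j` -/
def polyOf {d : ℕ} (q : K[X]) (p : Fin d → K[X]) : K[X][Y] :=
  C q * X ^ d - ∑ j, C (p j) * X ^ (j : ℕ)

theorem aevalAeval_polyOf {F : Type*} [Field F] [Algebra K F] {d : ℕ} (q : K[X])
    (p : Fin d → K[X]) (t y : F) :
    aevalAeval t y (polyOf q p) = aeval t q * y ^ d - ∑ j, aeval t (p j) * y ^ (j : ℕ) := by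
  simp only [polyOf, map_sub, map_mul, map_pow, map_sum, aevalAeval_C, aevalAeval_Y]

theorem map_polyOf {d : ℕ} (q : K[X]) (p : Fin d → K[X]) (τ : K) :
    (polyOf q p).map (evalRingHom τ)
      = C (q.eval τ) * X ^ d - ∑ j, C ((p j).eval τ) * X ^ (j : ℕ) := by
  simp only [polyOf, Polynomial.map_sub, Polynomial.map_mul, Polynomial.map_pow, Polynomial.map_sum,
    map_C, map_X, coe_evalRingHom]

theorem natDegree_map_polyOf_le {d : ℕ} (q : K[X]) (p : Fin d → K[X]) (τ : K) :
    ((polyOf q p).map (evalRingHom τ)).natDegree ≤ d := by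
  rw [map_polyOf]
  have h2 : (∑ j, C ((p j).eval τ) * X ^ (j : ℕ)).natDegree ≤ d := by
    refine natDegree_sum_le_of_forall_le _ _ fun j _ => ?_
    exact (natDegree_C_mul_X_pow_le ((p j).eval τ) (j : ℕ)).trans j.2.le
  exact (natDegree_sub_le_of_le (natDegree_C_mul_X_pow_le (q.eval τ) d) h2).trans (by simp)

theorem coeff_map_polyOf {d : ℕ} (q : K[X]) (p : Fin d → K[X]) (τ : K) :
    ((polyOf q p).map (evalRingHom τ)).coeff d = q.eval τ := by
  rw [map_polyOf, coeff_sub, coeff_C_mul, coeff_X_pow_self, mul_one, finsetSum_coeff,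
    Finset.sum_eq_zero, sub_zero]
  intro j _
  rw [coeff_C_mul, coeff_X_pow, if_neg j.2.ne', mul_zero]

end Poly

variable {K F : Type*} [Field K] [Field F] [Algebra K F]

/-- `y` is regular at the places over `τ` when `q(τ) ≠ 0` -/
theorem ord_nonneg_of_rel {d : ℕ} {t y : F} {q : K[X]} {p : Fin d → K[X]}
    (h : aeval t q * y ^ d = ∑ j, aeval t (p j) * y ^ (j : ℕ)) {τ : K} (hq : q.eval τ ≠ 0)
    (w : Place K F) (hw : 0 < w.ord (t - algebraMap K F τ)) : 0 ≤ w.ord y := by
  by_contra hneg
  rw [not_le] at hneg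
  have hy0 : y ≠ 0 := ne_zero_of_ord_ne_zero w (by omega)
  have ht : IsVal w t τ := Or.inr hw
  obtain ⟨hq0, hqord⟩ := SmoothPoint.ne_zero_and_ord_eq_zero (ht.aeval q) hq
  have hL0 : aeval t q * y ^ d ≠ 0 := mul_ne_zero hq0 (pow_ne_zero _ hy0)
  have hLord : w.ord (aeval t q * y ^ d) = d * w.ord y := by
    rw [w.ord_mul hq0 (pow_ne_zero _ hy0), hqord, ord_pow, zero_add]
  -- every partial sum on the right is zero or has order `> d * ord y`
  have key : ∀ s : Finset (Fin d), (∑ j ∈ s, aeval t (p j) * y ^ (j : ℕ)) = 0 ∨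
      d * w.ord y < w.ord (∑ j ∈ s, aeval t (p j) * y ^ (j : ℕ)) := by
    intro s
    classical
    induction s using Finset.induction_on with
    | empty => left; simp
    | insert j s hj ih =>
      rw [Finset.sum_insert hj]
      have hterm : aeval t (p j) * y ^ (j : ℕ) = 0 ∨
          d * w.ord y < w.ord (aeval t (p j) * y ^ (j : ℕ)) := by
        by_cases hp0 : aeval t (p j) = 0
        · left; rw [hp0, zero_mul]
        · right
          rw [w.ord_mul hp0 (pow_ne_zero _ hy0), ord_pow]
          have h1 : 0 ≤ w.ord (aeval t (p j)) := (ht.aeval (p j)).ord_nonneg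
          have h2 : ((j : ℕ) : ℤ) < d := by exact_mod_cast j.2
          nlinarith
      by_cases hsum : aeval t (p j) * y ^ (j : ℕ) + ∑ j ∈ s, aeval t (p j) * y ^ (j : ℕ) = 0
      · exact Or.inl hsum
      · right
        have hmin := min_ord_le_ord_add w hsum
        rcases hterm with h1 | h1
        · rcases ih with h2 | h2
          · exact absurd (by rw [h1, h2, add_zero]) hsum
          · rw [h1, zero_add]; exact h2
        · rcases ih with h2 | h2
          · rw [h2, add_zero]; exact h1
          · rcases min_le_iff.mp hmin with h3 | h3 <;> omega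
  rcases key Finset.univ with h0 | h0
  · exact hL0 (h.trans h0)
  · rw [← h, hLord] at h0
    exact lt_irrefl _ h0

variable [IsAlgClosed K] [CharZero K] [IsFF1 K F]

/-- Steps 1 and 2. -/
theorem exists_setup (v : Place K F) :
    ∃ (t y : F) (d : ℕ) (q : K[X]) (p : Fin d → K[X]) (u : Fin d → Place K F) (b : Fin d → K)
      (k₀ : Fin d), Transcendental K t ∧ Module.finrank K⟮t⟯ F = d ∧ u k₀ = v ∧
      Function.Injective b ∧ (∀ k, 0 < (u k).ord t) ∧ (∀ k, IsVal (u k) y (b k)) ∧
      q.eval 0 ≠ 0 ∧ aeval t q * y ^ d = ∑ j, aeval t (p j) * y ^ (j : ℕ) ∧ Gen2 K t y := by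
  classical
  obtain ⟨t, htv, hsimple⟩ := exists_uniformizer_simple_zeros v
  have htr : Transcendental K t := by
    rcases exists_const_or_transcendental (K := K) t with ⟨c, rfl⟩ | h
    · rw [ord_algebraMap] at htv
      exact absurd htv (by norm_num)
    · exact h
  obtain ⟨s, hs, -⟩ := exists_fibre t htr 0
  simp only [map_zero, sub_zero] at hs
  have hcard : s.card = Module.finrank K⟮t⟯ F := by
    apply card_fibre_of_unramified t htr 0 s
    · intro w; rw [hs]; simp
    · intro w hw
      simp only [map_zero, sub_zero]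
      exact hsimple w ((hs w).mp hw)
  set d := Module.finrank K⟮t⟯ F with hd
  let e : s ≃ Fin d := Finset.equivFinOfCardEq hcard
  let u : Fin d → Place K F := fun k => (e.symm k).1
  have hu_inj : Function.Injective u := fun k l h => e.symm.injective (Subtype.ext h)
  have hu_pos : ∀ k, 0 < (u k).ord t := fun k => (hs _).mp (e.symm k).2
  have hvs : v ∈ s := (hs v).mpr (by omega)
  -- pairwise distinct constants
  have : Infinite K := IsAlgClosed.instInfinite
  obtain ⟨b, hb⟩ : ∃ b : Fin d → K, Function.Injective b :=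
    ⟨_, (Infinite.natEmbedding K).injective.comp Fin.val_injective⟩
  obtain ⟨y, hy⟩ := exists_isVal s (fun w => if h : w ∈ s then b (e ⟨w, h⟩) else 0)
  have hyu : ∀ k, IsVal (u k) y (b k) := by
    intro k
    have := hy (u k) (e.symm k).2
    rw [dif_pos (e.symm k).2] at this
    simpa [u] using this
  obtain ⟨q, p, hq, hrel⟩ := localBasis_repr t y htr hd.symm u b hb hu_pos hyu (y ^ d)
    (fun k => by rw [ord_pow]; exact mul_nonneg (by positivity) (hyu k).ord_nonneg)
  refine ⟨t, y, d, q, p, u, b, e ⟨v, hvs⟩, htr, rfl, by simp [u], hb, hu_pos, hyu, hq, hrel, ?_⟩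
  intro f
  obtain ⟨q', p', hq', hrel'⟩ := localBasis_gen t y htr hd.symm u b hb hu_pos hyu f
  refine ⟨∑ j, C (p' j) * X ^ (j : ℕ), C q', ?_, ?_⟩
  · rw [aevalAeval_C]
    intro h0
    exact hq' ((transcendental_iff.mp htr) q' h0)
  · rw [aevalAeval_C, mul_comm, hrel']
    simp only [map_sum, map_mul, map_pow, aevalAeval_C, aevalAeval_Y]

end Fermat.Agent.S27
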