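import Fermat.Agent.S27.CE.Defs
import Fermat.Agent.S27.CE.Setup
import Fermat.Agent.S27.CE.Implicit

/-! # S27 / C1 (CE): Step 3 of BLUEPRINT_C: existence of `FibreData` around a given place

Take `t y d q p u b k₀` from `exists_setup v`, `P := polyOf q p`.
* `P(0, b k) = 0` (`SmoothPoint.evalEval_eq_zero` with `aevalAeval_polyOf`), so by
  `eq_C_mul_prod_of_roots` (`natDegree_map_polyOf_le`, `coeff_map_polyOf`)
  `P.map (evalRingHom 0) = C (q 0) * ∏ (X - C (b k))`, hence `P_Y(0, b k) ≠ 0`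
  (`evalEval_derivative_eq`, `eval_derivative_C_mul_prod`, `Finset.prod_ne_zero_iff`).
* `exists_implicit P 0 (b k)` gives `r k`, `φ k`.
* shrink: `q(τ) ≠ 0` near `0` (continuity of polynomials), `φ k τ ≠ φ l τ` near `0` for `k ≠ l`
  (continuity of `φ k`, `φ l` at `0`; finitely many pairs: `Filter.eventually_all`), `τ ∈ ball 0 (r k)` for all `k`;
  `Metric.eventually_nhds_iff_ball` gives `r`.
* `factor`: `eq_C_mul_prod_of_roots` again at `τ`; `reg_y`: `ord_nonneg_of_rel`.
-/

set_option autoImplicit false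

noncomputable section

namespace Fermat.Agent.S27

open AlgebraicCurve Fermat.Agent.S24.FF Polynomial IntermediateField
open scoped Polynomial.Bivariate

variable {F : Type*} [Field F] [Algebra ℂ F] [IsFF1 ℂ F]

theorem exists_fibreData (v : Place ℂ F) :
    ∃ (D : FibreData F) (k : Fin D.d), IsVal v D.t 0 ∧ IsVal v D.y (D.φ k 0) := by
  classical
  obtain ⟨t, y, d, q, p, u, b, k₀, htr, hfin, hu, hb, hut, huy, hq0, hrel, hgen⟩ :=
    exists_setup (K := ℂ) v
  set P : ℂ[X][Y] := polyOf q p with hPdef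
  have hP : aevalAeval t y P = 0 := by
    rw [hPdef, aevalAeval_polyOf, hrel, sub_self]
  have htv : ∀ k, IsVal (u k) t 0 := fun k => isVal_zero_iff.mpr (Or.inr (hut k))
  have hP0 : ∀ k, evalEval 0 (b k) P = 0 := fun k =>
    SmoothPoint.evalEval_eq_zero hP (htv k) (huy k)
  -- the factorisation of `P(τ, Y)` from `d` distinct roots
  have hfac : ∀ (τ : ℂ) (z : Fin d → ℂ), Function.Injective z → (∀ k, evalEval τ (z k) P = 0) →
      P.map (evalRingHom τ) = C (q.eval τ) * ∏ k, (X - C (z k)) := by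
    intro τ z hz h
    have h1 := eq_C_mul_prod_of_roots (P.map (evalRingHom τ)) (natDegree_map_polyOf_le q p τ) z hz
      (fun k => by rw [← evalEval_eq_eval_map]; exact h k)
    rw [coeff_map_polyOf] at h1
    exact h1
  have hder : ∀ k, evalEval 0 (b k) (derivative P) ≠ 0 := by
    intro k
    rw [evalEval_derivative_eq, hfac 0 b hb hP0, eval_derivative_C_mul_prod]
    refine mul_ne_zero hq0 (Finset.prod_ne_zero_iff.mpr fun l hl => sub_ne_zero.mpr fun h => ?_)
    exact (Finset.ne_of_mem_erase hl) (hb h).symm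
  choose r hr φ hφ0 hφan hφroot using fun k => exists_implicit P 0 (b k) (hP0 k) (hder k)
  -- shrink the radius
  have e1 : ∀ᶠ τ in nhds (0 : ℂ), q.eval τ ≠ 0 :=
    (q.continuous.continuousAt).eventually_ne hq0
  have e2 : ∀ᶠ τ in nhds (0 : ℂ), ∀ k, τ ∈ Metric.ball (0 : ℂ) (r k) :=
    Filter.eventually_all.mpr fun k => Metric.ball_mem_nhds _ (hr k)
  have e3 : ∀ᶠ τ in nhds (0 : ℂ), ∀ k l, k ≠ l → φ k τ ≠ φ l τ := by
    refine Filter.eventually_all.mpr fun k => Filter.eventually_all.mpr fun l => ?_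
    by_cases hkl : k = l
    · exact Filter.Eventually.of_forall fun _ h => absurd hkl h
    · have hck : ContinuousAt (φ k) 0 := (hφan k 0 (Metric.mem_ball_self (hr k))).continuousAt
      have hcl : ContinuousAt (φ l) 0 := (hφan l 0 (Metric.mem_ball_self (hr l))).continuousAt
      have h1 : ∀ᶠ τ in nhds (0 : ℂ), φ k τ - φ l τ ≠ 0 :=
        (hck.sub hcl).eventually_ne (by
          rw [Pi.sub_apply, hφ0, hφ0]
          exact sub_ne_zero.mpr fun h => hkl (hb h))
      filter_upwards [h1] with τ hτ _ h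
      exact hτ (sub_eq_zero.mpr h)
  obtain ⟨ρ, hρ, hball⟩ := Metric.eventually_nhds_iff_ball.mp (e1.and (e2.and e3))
  have hinj : ∀ τ ∈ Metric.ball (0 : ℂ) ρ, Function.Injective fun k => φ k τ := by
    intro τ hτ k l hkl
    by_contra hne
    exact (hball τ hτ).2.2 k l hne hkl
  refine ⟨{ t := t, y := y, d := d, P := P, q := q, r := ρ, φ := φ, r_pos := hρ, htr := htr,
            finrank_eq := hfin, gen := hgen, hP := hP, analytic_φ := ?_, factor := ?_,
            q_ne := ?_, inj := hinj, reg_y := ?_ }, k₀, ?_, ?_⟩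
  · intro k τ hτ
    exact hφan k τ ((hball τ hτ).2.1 k)
  · intro τ hτ
    exact hfac τ (fun k => φ k τ) (hinj τ hτ) fun k => hφroot k τ ((hball τ hτ).2.1 k)
  · intro τ hτ
    exact (hball τ hτ).1
  · intro τ hτ w hw
    exact ord_nonneg_of_rel hrel (hball τ hτ).1 w hw
  · rw [← hu]
    exact htv k₀
  · rw [← hu]
    change IsVal (u k₀) y (φ k₀ 0)
    rw [hφ0]
    exact huy k₀

end Fermat.Agent.S27
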