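import Fermat.Agent.S27.SmoothPoint
import Fermat.Agent.S27.FibBasic
import Fermat.Agent.S27.WLoc

/-! # S27 / C1 (CE): `FibreData`, the data from which a chart is built  (owner: helper226)

See `BLUEPRINT_C.md`, C1.  `t` is a function whose fibres over the ball `|τ| < r` are reduced;
`y` separates the `d = [F : ℂ(t)]` places of each of these fibres; `P(t,y) = 0`;
`P(τ, Y) = q(τ) ∏_k (Y - φ_k τ)` with `φ_k` analytic, pairwise distinct.
-/

set_option autoImplicit false

noncomputable section

namespace Fermat.Agent.S27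

open AlgebraicCurve Fermat.Agent.S24.FF Polynomial IntermediateField
open scoped Polynomial.Bivariate

/-- The data from which the charts over a disc of reduced fibres of `t` are built. -/
structure FibreData (F : Type*) [Field F] [Algebra ℂ F] where
  /-- the parameter function -/
  t : F
  /-- a function separating the points of the fibres of `t` -/
  y : F
  /-- the degree `[F : ℂ(t)]` -/
  d : ℕ
  /-- the equation `P(t,y) = 0` -/
  P : ℂ[X][Y]
  /-- the coefficient of `Y^d` in `P` -/
  q : ℂ[X]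
  /-- the radius -/
  r : ℝ
  /-- the roots of `P(τ, Y)` -/
  φ : Fin d → ℂ → ℂ
  r_pos : 0 < r
  htr : Transcendental ℂ t
  finrank_eq : Module.finrank ℂ⟮t⟯ F = d
  gen : Gen2 ℂ t y
  hP : aevalAeval t y P = 0
  analytic_φ : ∀ k, ∀ τ ∈ Metric.ball (0 : ℂ) r, AnalyticAt ℂ (φ k) τ
  factor : ∀ τ ∈ Metric.ball (0 : ℂ) r,
    P.map (evalRingHom τ) = C (q.eval τ) * ∏ k, (X - C (φ k τ))
  q_ne : ∀ τ ∈ Metric.ball (0 : ℂ) r, q.eval τ ≠ 0
  inj : ∀ τ ∈ Metric.ball (0 : ℂ) r, Function.Injective fun k => φ k τ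
  reg_y : ∀ τ ∈ Metric.ball (0 : ℂ) r, ∀ w : Place ℂ F,
    0 < w.ord (t - algebraMap ℂ F τ) → 0 ≤ w.ord y

namespace FibreData

variable {F : Type*} [Field F] [Algebra ℂ F] (D : FibreData F)

/-- the domain of the charts -/
def dom : Set ℂ := Metric.ball (0 : ℂ) D.r

theorem zero_mem_dom : (0 : ℂ) ∈ D.dom := Metric.mem_ball_self D.r_pos

theorem isOpen_dom : IsOpen D.dom := Metric.isOpen_ball

end FibreData

end Fermat.Agent.S27
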