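import Fermat.Agent.S27.CE.PlacesOver

/-! # S27 / C1 (CE): Step 6 of BLUEPRINT_C, algebra: the Lagrange kernel `k_τ`

`lag k τ = ∏_{l ≠ k} (Y - φ_l τ)/(φ_k τ - φ_l τ) ∈ ℂ[Y]`, `ker k τ = lag(y) (t-τ)⁻¹ ∈ F`.
* `eval_lag_self`, `eval_lag_of_ne`: `eval_prod`, `Finset.prod_eq_zero`, `D.inj`.
* `natDegree_lag_lt`: `natDegree_prod_le`, each factor has degree `≤ 1`, `card (erase) = d - 1`.
* `analyticAt_lag_coeff`: the class of `p : ℂ → ℂ[X]` all of whose coefficient functions are analytic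
  at `τ` is closed under products (`coeff_mul` is a finite sum over `antidiagonal`) and contains
  `σ ↦ C (f σ) * (X - C (g σ))` for `f g` analytic; `Finset.induction_on`.  `(φ_k - φ_l)⁻¹` is analytic at `τ`
  since `φ_k τ ≠ φ_l τ` (`AnalyticAt.inv`).
* `ker_eq_sum`: `Polynomial.aeval_eq_sum_range'` with `natDegree_lag_lt`, `Algebra.smul_def`, `Finset.sum_mul`.
The statements on the orders of `ker` are in `KernelOrd.lean`.
-/

set_option autoImplicit false

noncomputable section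

namespace Fermat.Agent.S27

open AlgebraicCurve Fermat.Agent.S24.FF Polynomial IntermediateField Topology
open scoped Polynomial.Bivariate

namespace FibreData

variable {F : Type*} [Field F] [Algebra ℂ F] (D : FibreData F)

/-- the Lagrange polynomial: value `1` at `φ k τ`, `0` at the other `φ l τ` -/
def lag (k : Fin D.d) (τ : ℂ) : ℂ[X] :=
  ∏ l ∈ Finset.univ.erase k, C (D.φ k τ - D.φ l τ)⁻¹ * (X - C (D.φ l τ))

/-- the kernel `k_τ` -/
def ker (k : Fin D.d) (τ : ℂ) : F := aeval D.y (D.lag k τ) * (D.t - algebraMap ℂ F τ)⁻¹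

theorem eval_lag_self (k : Fin D.d) {τ : ℂ} (hτ : τ ∈ D.dom) :
    (D.lag k τ).eval (D.φ k τ) = 1 := by
  unfold lag
  rw [eval_prod]
  refine Finset.prod_eq_one fun l hl => ?_
  have hlk : l ≠ k := Finset.ne_of_mem_erase hl
  have hne : D.φ k τ - D.φ l τ ≠ 0 := by
    intro h
    exact hlk ((D.inj τ hτ (sub_eq_zero.mp h)).symm)
  simp only [eval_mul, eval_C, eval_sub, eval_X]
  exact inv_mul_cancel₀ hne

theorem eval_lag_of_ne {k l : Fin D.d} (hkl : l ≠ k) (τ : ℂ) :
    (D.lag k τ).eval (D.φ l τ) = 0 := by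
  unfold lag
  rw [eval_prod]
  refine Finset.prod_eq_zero (Finset.mem_erase.mpr ⟨hkl, Finset.mem_univ l⟩) ?_
  simp

theorem natDegree_lag_lt (k : Fin D.d) (τ : ℂ) : (D.lag k τ).natDegree < D.d := by
  unfold lag
  have h1 : (∏ l ∈ Finset.univ.erase k, C (D.φ k τ - D.φ l τ)⁻¹ * (X - C (D.φ l τ))).natDegree
      ≤ ∑ l ∈ Finset.univ.erase k, (C (D.φ k τ - D.φ l τ)⁻¹ * (X - C (D.φ l τ))).natDegree :=
    natDegree_prod_le _ _
  have h2 : ∑ l ∈ Finset.univ.erase k, (C (D.φ k τ - D.φ l τ)⁻¹ * (X - C (D.φ l τ))).natDegree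
      ≤ ∑ _l ∈ Finset.univ.erase k, 1 := by
    refine Finset.sum_le_sum fun l _ => ?_
    refine (natDegree_C_mul_le _ _).trans ?_
    exact (natDegree_X_sub_C_le _)
  have h3 : ∑ _l ∈ Finset.univ.erase k, 1 = D.d - 1 := by
    rw [Finset.sum_const, smul_eq_mul, mul_one, Finset.card_erase_of_mem (Finset.mem_univ k),
      Finset.card_univ, Fintype.card_fin]
  have hd : 0 < D.d := Fin.pos k
  omega

/-- products of polynomial-valued maps with analytic coefficient functions -/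
theorem analyticAt_coeff_prod_aux {ι : Type*} (s : Finset ι) (p : ι → ℂ → ℂ[X]) (τ : ℂ)
    (hp : ∀ i ∈ s, ∀ j, AnalyticAt ℂ (fun σ => (p i σ).coeff j) τ) (j : ℕ) :
    AnalyticAt ℂ (fun σ => (∏ i ∈ s, p i σ).coeff j) τ := by
  classical
  induction s using Finset.induction_on generalizing j with
  | empty =>
    simp only [Finset.prod_empty]
    exact analyticAt_const
  | insert a s ha ih =>
    simp only [Finset.prod_insert ha, coeff_mul]
    refine Finset.analyticAt_fun_sum _ fun x _ => ?_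
    exact (hp a (Finset.mem_insert_self a s) x.1).mul
      (ih (fun i hi => hp i (Finset.mem_insert_of_mem hi)) x.2)

theorem analyticAt_lag_coeff (k : Fin D.d) (j : ℕ) {τ : ℂ} (hτ : τ ∈ D.dom) :
    AnalyticAt ℂ (fun σ => (D.lag k σ).coeff j) τ := by
  unfold lag
  refine analyticAt_coeff_prod_aux _ _ τ (fun l hl i => ?_) j
  have hlk : l ≠ k := Finset.ne_of_mem_erase hl
  have hne : D.φ k τ - D.φ l τ ≠ 0 := by
    intro h
    exact hlk ((D.inj τ hτ (sub_eq_zero.mp h)).symm)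
  have hk := D.analytic_φ k τ hτ
  have hl' := D.analytic_φ l τ hτ
  have hinv : AnalyticAt ℂ (fun σ => (D.φ k σ - D.φ l σ)⁻¹) τ := (hk.sub hl').inv hne
  simp only [coeff_C_mul, coeff_sub, coeff_X, coeff_C]
  refine hinv.mul (AnalyticAt.sub analyticAt_const ?_)
  by_cases hi : i = 0
  · simpa [hi] using hl'
  · simpa [hi] using (analyticAt_const : AnalyticAt ℂ (fun _ : ℂ => (0 : ℂ)) τ)

theorem ker_eq_sum (k : Fin D.d) (τ : ℂ) :
    D.ker k τ = ∑ j ∈ Finset.range D.d,
      algebraMap ℂ F ((D.lag k τ).coeff j) * (D.y ^ j * (D.t - algebraMap ℂ F τ)⁻¹) := by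
  unfold ker
  rw [aeval_eq_sum_range' (D.natDegree_lag_lt k τ), Finset.sum_mul]
  refine Finset.sum_congr rfl fun j _ => ?_
  rw [Algebra.smul_def, mul_assoc]

end FibreData

end Fermat.Agent.S27
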