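import Fermat.Agent.S27.CE.Kernel

/-! # S27 / C1 (CE): Step 6 of BLUEPRINT_C, algebra: the poles of the kernel `k_τ`

`IsVal (pl l τ) (aeval y (lag k τ)) ((lag k τ).eval (φ l τ))` (`IsVal.aeval`, `isVal_y`, `eval_lag_self`,
`eval_lag_of_ne`); a function with value `0` is `0` or has `ord ≥ 1` (`isVal_zero_iff`);
`ord (t-τ)⁻¹ = -1` (`ord_t`, `Place.ord_inv`); `Place.ord_mul`.
`ker k τ - (t-τ)⁻¹ = (aeval y (lag k τ) - 1) * (t-τ)⁻¹`.
At a place not over `τ`: `0 ≤ ord (t-τ)⁻¹`; `aeval y p` is regular where `y` is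
(`isVal_ev`, `IsVal.aeval`, `IsVal.ord_nonneg`).
-/

set_option autoImplicit false

noncomputable section

namespace Fermat.Agent.S27

open AlgebraicCurve Fermat.Agent.S24.FF Polynomial IntermediateField Topology
open scoped Polynomial.Bivariate

/-- a function vanishing at `w` times the inverse of a uniformizer is regular at `w` -/
theorem ord_mul_inv_nonneg_of_isVal_zero {K F : Type*} [Field K] [Field F] [Algebra K F]
    {w : Place K F} {a u : F} (ha : IsVal w a 0) (hu : w.ord u = 1) : 0 ≤ w.ord (a * u⁻¹) := by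
  rcases isVal_zero_iff.1 ha with h | h
  · rw [h, zero_mul, Place.ord_zero]
  · have ha0 : a ≠ 0 := by
      rintro rfl
      rw [Place.ord_zero] at h
      exact lt_irrefl _ h
    have hu0 : u ≠ 0 := by
      rintro rfl
      rw [Place.ord_zero] at hu
      exact zero_ne_one hu
    rw [Place.ord_mul _ ha0 (inv_ne_zero hu0), Place.ord_inv, hu]
    omega

/-- a product of functions regular at `w` is regular at `w` -/
theorem ord_mul_nonneg_of_nonneg {K F : Type*} [Field K] [Field F] [Algebra K F]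
    {w : Place K F} {a b : F} (ha : 0 ≤ w.ord a) (hb : 0 ≤ w.ord b) : 0 ≤ w.ord (a * b) := by
  by_cases ha0 : a = 0
  · rw [ha0, zero_mul, Place.ord_zero]
  by_cases hb0 : b = 0
  · rw [hb0, mul_zero, Place.ord_zero]
  rw [Place.ord_mul _ ha0 hb0]
  omega

namespace FibreData

variable {F : Type*} [Field F] [Algebra ℂ F] (D : FibreData F)

variable [IsFF1 ℂ F]

theorem ord_ker_nonneg_of_ne {k l : Fin D.d} (hkl : l ≠ k) {τ : ℂ} (hτ : τ ∈ D.dom) :
    0 ≤ (D.pl l τ).ord (D.ker k τ) := by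
  have h1 : IsVal (D.pl l τ) (aeval D.y (D.lag k τ)) 0 := by
    have := (D.isVal_y l hτ).aeval (D.lag k τ)
    rwa [D.eval_lag_of_ne hkl τ] at this
  exact ord_mul_inv_nonneg_of_isVal_zero h1 (D.ord_t l hτ)

theorem ord_ker_sub_nonneg (k : Fin D.d) {τ : ℂ} (hτ : τ ∈ D.dom) :
    0 ≤ (D.pl k τ).ord (D.ker k τ - (D.t - algebraMap ℂ F τ)⁻¹) := by
  have h1 : IsVal (D.pl k τ) (aeval D.y (D.lag k τ) - algebraMap ℂ F 1) 0 := by
    have h2 := ((D.isVal_y k hτ).aeval (D.lag k τ)).sub (isVal_algebraMap (D.pl k τ) (1 : ℂ))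
    rwa [D.eval_lag_self k hτ, sub_self] at h2
  have h3 : D.ker k τ - (D.t - algebraMap ℂ F τ)⁻¹
      = (aeval D.y (D.lag k τ) - algebraMap ℂ F 1) * (D.t - algebraMap ℂ F τ)⁻¹ := by
    rw [ker, map_one, sub_mul, one_mul]
  rw [h3]
  exact ord_mul_inv_nonneg_of_isVal_zero h1 (D.ord_t k hτ)

theorem ord_ker_nonneg_of_reg (k : Fin D.d) (τ : ℂ) (w : Place ℂ F)
    (hw : ¬ 0 < w.ord (D.t - algebraMap ℂ F τ)) (hy : 0 ≤ w.ord D.y) :
    0 ≤ w.ord (D.ker k τ) := by
  have h1 : 0 ≤ w.ord (aeval D.y (D.lag k τ)) := ((isVal_ev hy).aeval (D.lag k τ)).ord_nonneg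
  have h2 : 0 ≤ w.ord (D.t - algebraMap ℂ F τ)⁻¹ := by
    rw [Place.ord_inv]
    omega
  exact ord_mul_nonneg_of_nonneg h1 h2

end FibreData

end Fermat.Agent.S27
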