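import Fermat.Agent.S27.WLoc

/-! # S27 / C1 (CE): Lemma 6a of BLUEPRINT_C, case of a pole of `t`

`ord_w t < 0`, `u = t⁻¹`, `N ≥ - ord_w h` (e.g. `N = (- w.ord h).toNat`):
 `(t-τ)⁻¹ = ∑_{n<N} τ^n u^{n+1} + τ^N u^{N+1} (1-τu)⁻¹`  (field identity; `t ≠ 0`, `t - τ ≠ 0`, `1 - τ u ≠ 0`
 because their orders are `< 0`, `< 0`, `= 0`: `ord_add_eq_of_lt`, `ord_algebraMap`), `ord_w (1 - τ u) = 0`, so
 `h *` (last term) is regular at `w` and (`WDiff.loc_congr`, `loc_sum`, `loc_const_mul`)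
 `lam.loc w (h (t-τ)⁻¹) = ∑_{n<N} τ^n lam.loc w (h u^{n+1})` for ALL `τ`: a polynomial in `τ`, hence analytic
 (`fun_prop` / `Finset.analyticAt_sum`).
-/

set_option autoImplicit false

noncomputable section

namespace Fermat.Agent.S27

open AlgebraicCurve Fermat.Agent.S24.FF Topology

variable {F : Type*} [Field F] [Algebra ℂ F] [IsFF1 ℂ F]

omit [IsFF1 ℂ F] in
/-- `1 - x` is a unit at `w` when `x` vanishes at `w` (or `x = 0`). -/
theorem ord_one_sub_of_pos (w : Place ℂ F) {x : F} (hx : x = 0 ∨ 0 < w.ord x) :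
    w.ord (1 - x) = 0 := by
  rcases hx with rfl | hx
  · simp
  · have h := ord_add_eq_of_lt w (f := 1) (g := -x) one_ne_zero (by rw [ord_neg]; simpa using hx)
    rw [← sub_eq_add_neg] at h
    simpa using h

omit [IsFF1 ℂ F] in
/-- the geometric expansion of `(t - c)⁻¹` in powers of `t⁻¹`, with remainder -/
theorem inv_sub_geom_expansion {t c : F} (ht0 : t ≠ 0) (hy : 1 - c * t⁻¹ ≠ 0) (h : F) (N : ℕ) :
    h * (t - c)⁻¹ - ∑ n ∈ Finset.range N, c ^ n * (h * t⁻¹ ^ (n + 1))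
      = h * (c ^ N * t⁻¹ ^ (N + 1) * (1 - c * t⁻¹)⁻¹) := by
  have hS : (∑ n ∈ Finset.range N, (c * t⁻¹) ^ n) * (1 - c * t⁻¹) = 1 - (c * t⁻¹) ^ N :=
    geom_sum_mul_neg _ _
  have hsum : ∑ n ∈ Finset.range N, c ^ n * (h * t⁻¹ ^ (n + 1))
      = h * t⁻¹ * ∑ n ∈ Finset.range N, (c * t⁻¹) ^ n := by
    rw [Finset.mul_sum]
    refine Finset.sum_congr rfl fun n _ => ?_
    rw [mul_pow, pow_succ]
    ring
  have hS' : ∑ n ∈ Finset.range N, (c * t⁻¹) ^ n = (1 - (c * t⁻¹) ^ N) * (1 - c * t⁻¹)⁻¹ := by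
    rw [← hS, mul_assoc, mul_inv_cancel₀ hy, mul_one]
  have htc : (t - c)⁻¹ = t⁻¹ * (1 - c * t⁻¹)⁻¹ := by
    rw [← mul_inv]
    congr 1
    rw [mul_sub, mul_one, mul_comm c, ← mul_assoc, mul_inv_cancel₀ ht0, one_mul]
  rw [hsum, hS', htc, mul_pow, pow_succ]
  ring

omit [IsFF1 ℂ F] in
/-- the explicit polynomial formula for the local component at a pole of `t` -/
theorem loc_of_pole_eq_sum (lam : WDiff ℂ F) (w : Place ℂ F) (t h : F) (ht : w.ord t < 0)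
    (τ : ℂ) :
    lam.loc w (h * (t - algebraMap ℂ F τ)⁻¹)
      = ∑ n ∈ Finset.range (-(w.ord h)).toNat, τ ^ n * lam.loc w (h * t⁻¹ ^ (n + 1)) := by
  set N : ℕ := (-(w.ord h)).toNat with hN
  set c : F := algebraMap ℂ F τ with hc
  have ht0 : t ≠ 0 := ne_zero_of_ord_ne_zero w ht.ne
  have hu : 0 < w.ord t⁻¹ := by rw [w.ord_inv]; omega
  have hu0 : t⁻¹ ≠ 0 := inv_ne_zero ht0
  have hx : c * t⁻¹ = 0 ∨ 0 < w.ord (c * t⁻¹) := by
    by_cases hc0 : c = 0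
    · left; rw [hc0, zero_mul]
    · right
      rw [w.ord_mul hc0 hu0, hc, ord_algebraMap, zero_add]
      exact hu
  have hy : w.ord (1 - c * t⁻¹) = 0 := ord_one_sub_of_pos w hx
  have hy0 : 1 - c * t⁻¹ ≠ 0 := by
    intro h0
    rcases hx with hx | hx
    · rw [hx, sub_zero] at h0
      exact one_ne_zero h0
    · have h1 : c * t⁻¹ = 1 := (sub_eq_zero.1 h0).symm
      rw [h1, w.ord_one] at hx
      exact lt_irrefl _ hx
  have hkey := inv_sub_geom_expansion ht0 hy0 h N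
  have hreg : 0 ≤ w.ord (h * (t - c)⁻¹ - ∑ n ∈ Finset.range N, c ^ n * (h * t⁻¹ ^ (n + 1))) := by
    rw [hkey]
    by_cases hh : h = 0
    · rw [hh, zero_mul, w.ord_zero]
    by_cases hc0 : c = 0
    · by_cases hN0 : N = 0
      · rw [hN0, pow_zero, one_mul, zero_add, pow_one, w.ord_mul hh (mul_ne_zero hu0 (inv_ne_zero hy0)),
          w.ord_mul hu0 (inv_ne_zero hy0), w.ord_inv (1 - c * t⁻¹), hy]
        omega
      · rw [hc0, zero_pow hN0, zero_mul, zero_mul, mul_zero, w.ord_zero]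
    · have h1 : c ^ N ≠ 0 := pow_ne_zero _ hc0
      have h2 : t⁻¹ ^ (N + 1) ≠ 0 := pow_ne_zero _ hu0
      rw [w.ord_mul hh (mul_ne_zero (mul_ne_zero h1 h2) (inv_ne_zero hy0)),
        w.ord_mul (mul_ne_zero h1 h2) (inv_ne_zero hy0), w.ord_mul h1 h2,
        w.ord_inv (1 - c * t⁻¹), hy, ord_pow, ord_pow, hc, ord_algebraMap]
      have h3 : ((N + 1 : ℕ) : ℤ) ≤ ((N + 1 : ℕ) : ℤ) * w.ord t⁻¹ := by
        nlinarith [Int.natCast_nonneg (N + 1)]
      have h4 : -(w.ord h) ≤ (N : ℤ) := by rw [hN]; exact Int.self_le_toNat _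
      push_cast at h3 ⊢
      omega
  rw [lam.loc_congr hreg, lam.loc_sum]
  refine Finset.sum_congr rfl fun n _ => ?_
  rw [hc, ← map_pow, lam.loc_const_mul]

theorem analyticAt_loc_of_pole (lam : WDiff ℂ F) (w : Place ℂ F) (t h : F) (ht : w.ord t < 0)
    (τ₀ : ℂ) : AnalyticAt ℂ (fun τ => lam.loc w (h * (t - algebraMap ℂ F τ)⁻¹)) τ₀ := by
  have hfun : (fun τ => lam.loc w (h * (t - algebraMap ℂ F τ)⁻¹))
      = fun τ : ℂ => ∑ n ∈ Finset.range (-(w.ord h)).toNat,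
          τ ^ n * lam.loc w (h * t⁻¹ ^ (n + 1)) := by
    funext τ
    exact loc_of_pole_eq_sum lam w t h ht τ
  rw [hfun]
  fun_prop

end Fermat.Agent.S27
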