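import Fermat.Agent.S27.CE.Defs
import Fermat.Agent.S27.CE.PolyRoots

/-! # S27 / C1 (CE): Step 4 of BLUEPRINT_C: the places over `τ`

* `deriv_ne`: `evalEval_derivative_eq`, `D.factor`, `eval_derivative_C_mul_prod`, `D.inj`, `D.q_ne`.
* `exists_index`: `y` is regular at `w` (`D.reg_y`), `b := ev w y`, `P(τ,b) = 0`
  (`SmoothPoint.evalEval_eq_zero`), `evalEval_eq_eval_map`, `D.factor`, `exists_eq_of_eval_C_mul_prod`.
* `existsUnique_place`: let `s` be the fibre over `τ` (`exists_fibre`); every `w ∈ s` is unramified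
  (`smoothPoint_ord`), so `s.card = d` (`card_fibre_of_unramified`, `D.finrank_eq`); `w ↦ k(w)` is injective
  (`smoothPoint_unique`), hence surjective (`Finite.injective_iff_surjective`-type counting,
  e.g. `Fintype.bijective_iff_injective_and_card`).  Uniqueness: `smoothPoint_unique`.
-/

set_option autoImplicit false

noncomputable section

namespace Fermat.Agent.S27

open AlgebraicCurve Fermat.Agent.S24.FF Polynomial IntermediateField
open scoped Polynomial.Bivariate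

namespace FibreData

variable {F : Type*} [Field F] [Algebra ℂ F] (D : FibreData F)

theorem evalEval_φ (k : Fin D.d) {τ : ℂ} (hτ : τ ∈ D.dom) : evalEval τ (D.φ k τ) D.P = 0 := by
  rw [evalEval_eq_eval_map, D.factor τ hτ]
  exact eval_C_mul_prod_self (D.q.eval τ) (fun l => D.φ l τ) k

theorem deriv_ne (k : Fin D.d) {τ : ℂ} (hτ : τ ∈ D.dom) :
    evalEval τ (D.φ k τ) (derivative D.P) ≠ 0 := by
  rw [evalEval_derivative_eq, D.factor τ hτ]
  have h := eval_derivative_C_mul_prod (D.q.eval τ) (fun l => D.φ l τ) k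
  rw [h]
  refine mul_ne_zero (D.q_ne τ hτ) (Finset.prod_ne_zero_iff.mpr fun l hl => ?_)
  rw [sub_ne_zero]
  intro heq
  exact (Finset.ne_of_mem_erase hl) (D.inj τ hτ heq.symm)

variable [IsFF1 ℂ F]

/-- a place over `τ` has `y`-value one of the `φ k τ` -/
theorem exists_index {τ : ℂ} (hτ : τ ∈ D.dom) (w : Place ℂ F)
    (hw : 0 < w.ord (D.t - algebraMap ℂ F τ)) : ∃ k, IsVal w D.y (D.φ k τ) := by
  have hy : IsVal w D.y (ev w D.y) := isVal_ev (D.reg_y τ hτ w hw)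
  have ht : IsVal w D.t τ := Or.inr hw
  have h0 : evalEval τ (ev w D.y) D.P = 0 := SmoothPoint.evalEval_eq_zero D.hP ht hy
  rw [evalEval_eq_eval_map, D.factor τ hτ] at h0
  obtain ⟨k, hk⟩ := exists_eq_of_eval_C_mul_prod (D.q_ne τ hτ) (fun l => D.φ l τ) h0
  exact ⟨k, hk ▸ hy⟩

theorem existsUnique_place (k : Fin D.d) {τ : ℂ} (hτ : τ ∈ D.dom) :
    ∃! w : Place ℂ F, IsVal w D.t τ ∧ IsVal w D.y (D.φ k τ) := by
  classical
  obtain ⟨s, hs, -⟩ := exists_fibre D.t D.htr τ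
  have hidx : ∀ w : s, ∃ l, IsVal w.1 D.y (D.φ l τ) := fun w =>
    D.exists_index hτ w.1 ((hs w.1).mp w.2)
  choose idx hidx using hidx
  have ht : ∀ w : s, IsVal w.1 D.t τ := fun w => Or.inr ((hs w.1).mp w.2)
  have hunr : ∀ v ∈ s, v.ord (D.t - algebraMap ℂ F τ) = 1 := by
    intro v hv
    exact smoothPoint_ord D.gen D.hP (ht ⟨v, hv⟩) (hidx ⟨v, hv⟩) (D.deriv_ne _ hτ)
  have hcard : s.card = D.d := by
    rw [card_fibre_of_unramified D.t D.htr τ s hs hunr, D.finrank_eq]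
  have hinj : Function.Injective idx := by
    intro w w' hww
    apply Subtype.ext
    have h1 := hidx w
    have h2 := hidx w'
    rw [← hww] at h2
    exact smoothPoint_unique D.gen D.hP (ht w) h1 (ht w') h2 (D.deriv_ne _ hτ)
  have hbij : Function.Bijective idx := by
    rw [Fintype.bijective_iff_injective_and_card]
    exact ⟨hinj, by simp [hcard]⟩
  obtain ⟨w, hw⟩ := hbij.2 k
  refine ⟨w.1, ⟨ht w, hw ▸ hidx w⟩, ?_⟩
  rintro w' ⟨h1, h2⟩
  exact smoothPoint_unique D.gen D.hP h1 h2 (ht w) (hw ▸ hidx w) (D.deriv_ne _ hτ)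

open Classical in
/-- the place over `τ` with `y`-value `φ k τ` (junk outside the ball) -/
def pl (k : Fin D.d) (τ : ℂ) : Place ℂ F :=
  if h : τ ∈ D.dom then (D.existsUnique_place k h).choose
  else (D.existsUnique_place k D.zero_mem_dom).choose

theorem isVal_t (k : Fin D.d) {τ : ℂ} (hτ : τ ∈ D.dom) : IsVal (D.pl k τ) D.t τ := by
  rw [pl, dif_pos hτ]
  exact (D.existsUnique_place k hτ).choose_spec.1.1

theorem isVal_y (k : Fin D.d) {τ : ℂ} (hτ : τ ∈ D.dom) : IsVal (D.pl k τ) D.y (D.φ k τ) := by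
  rw [pl, dif_pos hτ]
  exact (D.existsUnique_place k hτ).choose_spec.1.2

theorem eq_pl (k : Fin D.d) {τ : ℂ} (hτ : τ ∈ D.dom) {w : Place ℂ F} (h1 : IsVal w D.t τ)
    (h2 : IsVal w D.y (D.φ k τ)) : w = D.pl k τ := by
  rw [pl, dif_pos hτ]
  exact (D.existsUnique_place k hτ).choose_spec.2 w ⟨h1, h2⟩

theorem ord_t (k : Fin D.d) {τ : ℂ} (hτ : τ ∈ D.dom) :
    (D.pl k τ).ord (D.t - algebraMap ℂ F τ) = 1 :=
  smoothPoint_ord D.gen D.hP (D.isVal_t k hτ) (D.isVal_y k hτ) (D.deriv_ne k hτ)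

/-- every place over `τ` is one of the `pl k τ` -/
theorem exists_eq_pl {τ : ℂ} (hτ : τ ∈ D.dom) (w : Place ℂ F)
    (hw : 0 < w.ord (D.t - algebraMap ℂ F τ)) : ∃ k, w = D.pl k τ := by
  obtain ⟨k, hk⟩ := D.exists_index hτ w hw
  exact ⟨k, D.eq_pl k hτ (Or.inr hw) hk⟩

theorem pl_ne_of_ne {k l : Fin D.d} (hkl : k ≠ l) {τ : ℂ} (hτ : τ ∈ D.dom) :
    D.pl k τ ≠ D.pl l τ := by
  intro h
  have h1 := D.isVal_y k hτ
  have h2 := D.isVal_y l hτ
  rw [h] at h1
  exact hkl (D.inj τ hτ (h1.unique h2))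

end FibreData

end Fermat.Agent.S27
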